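/-
Project D (S48, Deligne–Serre), part B, block B5, seam [B-heq], the swap identity, file 2:
THE ATKIN-LEHNER AUTOMORPHISM of `E = ℚ̄(X₁(M; ℓ))` from helper8's seam `RhoSeam.HasRhoB`.

`F = ℚ̄(X₁(M))`, `α = alpha1` (inclusion), `β = beta1` (`V : q ↦ q^ℓ`).

* `mem_of_gen`, `mem_of_gen'` : `E` is generated over `ℚ̄` by `α F` and `β F`
  (`F1p = F1 ⊔ V F1` and base change);
* **`exists_atkinLehner`** : from `HasRhoB M ℓ hℓM` (an embedding `ρ` of `E` in `ℚ̄((q))` with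
  `ρ (β x) = V x`, `ρ (α x) = V (V (δ x))`, `δ = ⟨ℓ⁻¹⟩^*`) an automorphism `W` of `E` over `ℚ̄` with
  `W (β x) = α x` and `W (α x) = β (δ x)`: `ρ = V ∘ W` since `ρ` maps the generators into `V E`, and
  `W` is onto since its image contains `α F` and `β F`.
-/
import Mathlib
import Fermat.Agent.S48.B.Defs.Model
import Fermat.Agent.S48.B.ES.RhoSeam

set_option autoImplicit false

open ModularCurve

noncomputable section

namespace Fermat.Agent.S48.B.Hecke.Swap.Aut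

open Fermat.Agent.S48.B.Defs.Model Fermat.Agent.S48.B.ES.RhoSeam

local notation "Kb" => AlgebraicClosure ℚ

variable (M ℓ : ℕ) [NeZero M] [NeZero ℓ]

/-! ### generation -/

/-- the rational series whose base change lies in a given subfield -/
def subQ (S : Subfield (LaurentSeries Kb)) : IntermediateField ℚ (LaurentSeries ℚ) :=
  (S.comap (coeffEmb Kb)).toIntermediateField fun r => by
    rw [Subfield.mem_comap, eq_ratCast, map_ratCast]
    exact SubfieldClass.ratCast_mem _ r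

theorem mem_subQ {S : Subfield (LaurentSeries Kb)} {z : LaurentSeries ℚ} :
    z ∈ subQ S ↔ coeffEmb Kb z ∈ S := Iff.rfl

/-- **`E = ℚ̄(α F, β F)`** inside `ℚ̄((q))` -/
theorem mem_of_gen (S : Subfield (LaurentSeries Kb))
    (hc : ∀ c : Kb, algebraMap Kb (LaurentSeries Kb) c ∈ S)
    (hα : ∀ x : F1Bar M, (x : LaurentSeries Kb) ∈ S)
    (hβ : ∀ x : F1Bar M, qExpand Kb ℓ (x : LaurentSeries Kb) ∈ S)
    {y : LaurentSeries Kb} (hy : y ∈ laurentBaseChange Kb (F1p M ℓ)) : y ∈ S := by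
  have hle : F1p M ℓ ≤ subQ S := by
    refine sup_le ?_ ?_
    · intro z hz
      exact hα ⟨coeffEmb Kb z, coeffEmb_mem_laurentBaseChange Kb hz⟩
    · rintro _ ⟨z, hz, rfl⟩
      rw [mem_subQ]
      show coeffEmb Kb (qExpand ℚ ℓ z) ∈ S
      rw [coeffEmb_qExpand]
      exact hβ ⟨coeffEmb Kb z, coeffEmb_mem_laurentBaseChange Kb hz⟩
  rw [mem_laurentBaseChange_iff] at hy
  induction hy using Subfield.closure_induction with
  | mem y hy =>
      rcases hy with ⟨c, rfl⟩ | ⟨z, hz, rfl⟩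
      · exact hc c
      · exact hle hz
  | one => exact one_mem _
  | add x y _ _ hx hy => exact add_mem hx hy
  | neg x _ hx => exact neg_mem hx
  | inv x _ hx => exact inv_mem hx
  | mul x y _ _ hx hy => exact mul_mem hx hy

/-- **`E = ℚ̄(α F, β F)`**, intrinsic form -/
theorem mem_of_gen' (S' : Subfield ↥(laurentBaseChange Kb (F1p M ℓ)))
    (hα : ∀ x : F1Bar M, alpha1 M ℓ Kb x ∈ S') (hβ : ∀ x : F1Bar M, beta1 M ℓ Kb x ∈ S')
    (y : ↥(laurentBaseChange Kb (F1p M ℓ))) : y ∈ S' := by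
  have hT := mem_of_gen M ℓ
    (S'.map ((laurentBaseChange Kb (F1p M ℓ)).val : ↥(laurentBaseChange Kb (F1p M ℓ)) →+* _))
    (fun c => Subfield.mem_map.mpr
      ⟨alpha1 M ℓ Kb (algebraMap Kb (F1Bar M) c), hα _, by
        rw [AlgHom.commutes]
        rfl⟩)
    (fun x => Subfield.mem_map.mpr ⟨alpha1 M ℓ Kb x, hα x, coe_alpha1 M ℓ Kb x⟩)
    (fun x => Subfield.mem_map.mpr ⟨beta1 M ℓ Kb x, hβ x, coe_beta1 M ℓ Kb x⟩) y.2
  obtain ⟨y', hy', e⟩ := Subfield.mem_map.mp hT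
  have : y' = y := Subtype.ext e
  rwa [this] at hy'

/-! ### the automorphism -/

variable {M ℓ}

/-- `V` on `E` -/
def Vres : ↥(laurentBaseChange Kb (F1p M ℓ)) →+* LaurentSeries Kb :=
  (qExpand Kb ℓ).comp
    ((laurentBaseChange Kb (F1p M ℓ)).val : ↥(laurentBaseChange Kb (F1p M ℓ)) →+* _)

theorem Vres_apply (y : ↥(laurentBaseChange Kb (F1p M ℓ))) :
    Vres y = qExpand Kb ℓ (y : LaurentSeries Kb) := rfl

/-- **the Atkin-Lehner automorphism** -/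
theorem exists_atkinLehner (hℓM : ℓ.Coprime M) (h : HasRhoB M ℓ hℓM) :
    ∃ (W : ↥(laurentBaseChange Kb (F1p M ℓ)) ≃ₐ[Kb] ↥(laurentBaseChange Kb (F1p M ℓ)))
      (δ : F1Bar M ≃ₐ[Kb] F1Bar M),
      IsDiamondAut M Kb (ZMod.unitOfCoprime ℓ hℓM)⁻¹ δ ∧
      (∀ x : F1Bar M, W (beta1 M ℓ Kb x) = alpha1 M ℓ Kb x) ∧
      (∀ x : F1Bar M, W (alpha1 M ℓ Kb x) = beta1 M ℓ Kb (δ x)) := by
  obtain ⟨ρ, δ, hδ, hρβ, hρα⟩ := h
  -- `ρ` lands in `V E`
  have hρ : ∀ y, ρ y ∈ (Vres (M := M) (ℓ := ℓ)).fieldRange := fun y =>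
    mem_of_gen' M ℓ ((Vres (M := M) (ℓ := ℓ)).fieldRange.comap ρ)
      (fun x => RingHom.mem_fieldRange.mpr ⟨beta1 M ℓ Kb (δ x), by
        rw [hρα, Vres_apply, coe_beta1]⟩)
      (fun x => RingHom.mem_fieldRange.mpr ⟨alpha1 M ℓ Kb x, by
        rw [hρβ, Vres_apply, coe_alpha1]⟩) y
  -- `W₀ = V⁻¹ ∘ ρ`
  let W₀ : ↥(laurentBaseChange Kb (F1p M ℓ)) →+* ↥(laurentBaseChange Kb (F1p M ℓ)) :=
    ((Vres (M := M) (ℓ := ℓ)).rangeRestrictFieldEquiv.symm :
      ↥(Vres (M := M) (ℓ := ℓ)).fieldRange →+* _).comp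
      (ρ.codRestrict (Vres (M := M) (ℓ := ℓ)).fieldRange hρ)
  have hW₀ : ∀ y, Vres (W₀ y) = ρ y := fun y =>
    RingHom.rangeRestrictFieldEquiv_apply_symm_apply Vres _
  have hinj : Function.Injective (Vres (M := M) (ℓ := ℓ)) := RingHom.injective _
  have hWβ : ∀ x : F1Bar M, W₀ (beta1 M ℓ Kb x) = alpha1 M ℓ Kb x := fun x => hinj <| by
    rw [hW₀, hρβ, Vres_apply, coe_alpha1]
  have hWα : ∀ x : F1Bar M, W₀ (alpha1 M ℓ Kb x) = beta1 M ℓ Kb (δ x) := fun x => hinj <| by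
    rw [hW₀, hρα, Vres_apply, coe_beta1]
  -- `W₀` is an algebra homomorphism
  let W₁ : ↥(laurentBaseChange Kb (F1p M ℓ)) →ₐ[Kb] ↥(laurentBaseChange Kb (F1p M ℓ)) :=
    { W₀ with
      commutes' := fun c => by
        show W₀ (algebraMap Kb _ c) = algebraMap Kb _ c
        have h1 := hWβ (algebraMap Kb (F1Bar M) c)
        rwa [(beta1 M ℓ Kb).commutes, (alpha1 M ℓ Kb).commutes] at h1 }
  have hsurj : Function.Surjective W₁ := fun y => by
    have := mem_of_gen' M ℓ (W₀.fieldRange)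
      (fun x => RingHom.mem_fieldRange.mpr ⟨beta1 M ℓ Kb x, hWβ x⟩)
      (fun x => RingHom.mem_fieldRange.mpr ⟨alpha1 M ℓ Kb (δ.symm x), by
        rw [hWα, AlgEquiv.apply_symm_apply]⟩) y
    exact RingHom.mem_fieldRange.mp this
  exact ⟨AlgEquiv.ofBijective W₁ ⟨W₁.injective, hsurj⟩, δ, hδ, hWβ, hWα⟩

end Fermat.Agent.S48.B.Hecke.Swap.Aut
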