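/-
Project D (S48, Deligne–Serre), part B, block B5, seam [B-heq], the swap identity, file 1
(LEVEL-FREE): correspondences and TWISTED intertwining.

Two-map generalisation of main's `S30/Arith/CorrEquivariant` (there `φ' = φ`): for homomorphisms
`φ φ' : F →ₐ[K] F'` of function fields and semilinear automorphisms `g` of `F`, `g'` of `F'` with
`g' ∘ φ = φ' ∘ g` (`Tw φ φ' g g'`):

* `restrictAlong_tw`, `ramificationIndexAlong_tw` ;
* `inertiaDegAlong_eq_one` : all inertia degrees are `1` when all places have degree `1`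
  (algebraically closed constant field);
* `pullbackAlong_tw`  : `φ'^* (g • D) = g' • φ^* D` ;
* `pushforwardAlong_tw` : `φ'_* (g' • E) = g • φ_* E` ;
* **`correspondence_tw`**, **`pic0_correspondence_tw`**, **`corrOp_tw`** : if `g' ∘ φ = φ' ∘ g₁` and
  `g' ∘ ψ = ψ' ∘ g₂` then `ψ'_* φ'^* (g₁ • x) = g₂ • ψ_* φ^* x`.
-/
import Mathlib
import Fermat.Agent.S30.Arith.CorrEquivariant
import Fermat.Agent.S48.B.Defs.Model

set_option autoImplicit false
set_option linter.style.haveILetI false

noncomputable section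

namespace Fermat.Agent.S48.B.Hecke.Swap.Functorial

open AlgebraicCurve AlgebraicCurve.SemilinearAut
open Fermat.Agent.S30.Arith.CorrEquivariant Fermat.Agent.S48.B.Defs.Model
open scoped Pointwise

variable {K F F' : Type*} [Field K] [Field F] [Field F'] [Algebra K F] [Algebra K F']

/-- twisted intertwining: `g' ∘ φ = φ' ∘ g` -/
def Tw (φ φ' : F →ₐ[K] F') (g : SemilinearAut K F) (g' : SemilinearAut K F') : Prop :=
  ∀ x : F, g' • φ x = φ' (g • x)

section Places

variable {φ φ' : F →ₐ[K] F'} (hφ : φ.toRingHom.IsIntegral) (hφ' : φ'.toRingHom.IsIntegral)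
variable {g : SemilinearAut K F} {g' : SemilinearAut K F'}

theorem Tw.inv_apply (h : Tw φ φ' g g') (x : F) : g'⁻¹ • φ' x = φ (g⁻¹ • x) := by
  have h1 := h (g⁻¹ • x)
  rw [smul_inv_smul] at h1
  rw [← h1, inv_smul_smul]

theorem Tw.inv (h : Tw φ φ' g g') : Tw φ' φ g⁻¹ g'⁻¹ := fun x => h.inv_apply x

/-- restriction of places under twisted intertwining -/
theorem restrictAlong_tw (h : Tw φ φ' g g') (w : Place K F') :
    (g' • w).restrictAlong φ' hφ' = g • w.restrictAlong φ hφ := by
  apply Place.ext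
  ext x
  rw [mem_restrictAlong_iff, smul_toValuationSubring, smul_toValuationSubring,
    ValuationSubring.mem_pointwise_smul_iff_inv_smul_mem,
    ValuationSubring.mem_pointwise_smul_iff_inv_smul_mem, mem_restrictAlong_iff, h.inv_apply]

theorem ord_tw (h : Tw φ φ' g g') (w : Place K F') (f : F) :
    (g' • w).ord (φ' (g • f)) = w.ord (φ f) := by
  rw [← h f, ord_smul]

/-- the ramification index under twisted intertwining -/
theorem ramificationIndexAlong_tw (h : Tw φ φ' g g') (w : Place K F') :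
    Place.ramificationIndexAlong φ' (g' • w) = Place.ramificationIndexAlong φ w := by
  rw [ramificationIndexAlong_def, ramificationIndexAlong_def]
  congr 1
  ext n
  constructor
  · rintro ⟨hn, f, hf, e⟩
    refine ⟨hn, g⁻¹ • f, by simpa using hf, ?_⟩
    rw [← e, ← ord_tw h w (g⁻¹ • f), smul_inv_smul]
  · rintro ⟨hn, f, hf, e⟩
    refine ⟨hn, g • f, by simpa using hf, ?_⟩
    rw [← e, ord_tw h]

/-- all inertia degrees are `1` when all places have degree `1` -/
theorem inertiaDegAlong_eq_one (hdeg : ∀ v : Place K F, v.deg = 1)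
    (hdeg' : ∀ w : Place K F', w.deg = 1) (w : Place K F') :
    Place.inertiaDegAlong φ hφ w = 1 := by
  letI := algebraAlong φ
  haveI := isScalarTower_along φ
  haveI := isIntegral_along φ hφ
  have h := Place.deg_restrict_mul_inertiaDeg (F := F) w
  rw [hdeg, hdeg', one_mul] at h
  exact h

end Places

section Divisors

variable {φ φ' : F →ₐ[K] F'} (hφ : φ.toRingHom.IsIntegral) (hφ' : φ'.toRingHom.IsIntegral)
variable {g : SemilinearAut K F} {g' : SemilinearAut K F'}

/-- pull-back under twisted intertwining -/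
theorem pullbackAlong_tw [HasPrincipalDivisors K F'] (h : Tw φ φ' g g') (D : Divisor K F) :
    Divisor.pullbackAlong φ' hφ' (g • D) = g' • Divisor.pullbackAlong φ hφ D := by
  ext w
  rw [Divisor.pullbackAlong_apply, divisor_smul_apply g', Divisor.pullbackAlong_apply,
    divisor_smul_apply g, restrictAlong_tw hφ' hφ h.inv, ramificationIndexAlong_tw h.inv]

/-- push-forward under twisted intertwining -/
theorem pushforwardAlong_tw (hdeg : ∀ v : Place K F, v.deg = 1)
    (hdeg' : ∀ w : Place K F', w.deg = 1) (h : Tw φ φ' g g') (E : Divisor K F') :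
    Divisor.pushforwardAlong φ' hφ' (g' • E) = g • Divisor.pushforwardAlong φ hφ E := by
  induction E using Finsupp.induction_linear with
  | zero => simp
  | add D E hD hE => rw [smul_add, map_add, map_add, smul_add, hD, hE]
  | single w n =>
    rw [smul_single, Divisor.pushforwardAlong_single, Divisor.pushforwardAlong_single,
      smul_single, restrictAlong_tw hφ hφ' h, inertiaDegAlong_eq_one hφ hdeg hdeg',
      inertiaDegAlong_eq_one hφ' hdeg hdeg']

variable {ψ ψ' : F →ₐ[K] F'} (hψ : ψ.toRingHom.IsIntegral) (hψ' : ψ'.toRingHom.IsIntegral)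
variable {g₂ : SemilinearAut K F}

/-- **correspondences under twisted intertwining**, on divisors -/
theorem correspondence_tw [HasPrincipalDivisors K F'] (hdeg : ∀ v : Place K F, v.deg = 1)
    (hdeg' : ∀ w : Place K F', w.deg = 1) (h : Tw φ φ' g g') (h' : Tw ψ ψ' g₂ g')
    (D : Divisor K F) :
    Divisor.correspondence φ' ψ' hφ' hψ' (g • D) =
      g₂ • Divisor.correspondence φ ψ hφ hψ D := by
  rw [Divisor.correspondence_apply, Divisor.correspondence_apply, pullbackAlong_tw hφ hφ' h,
    pushforwardAlong_tw hψ hψ' hdeg hdeg' h']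

/-- **correspondences under twisted intertwining**, on `Pic⁰` -/
theorem pic0_correspondence_tw [HasPrincipalDivisors K F']
    (hFI : FundamentalIdentityAlong K φ hφ) (hFI' : FundamentalIdentityAlong K φ' hφ')
    (hfin : FiniteAlong K ψ) (hfin' : FiniteAlong K ψ')
    (hN : NormFormulaAlong K ψ hfin) (hN' : NormFormulaAlong K ψ' hfin')
    (hdeg : ∀ v : Place K F, v.deg = 1) (hdeg' : ∀ w : Place K F', w.deg = 1)
    (h : Tw φ φ' g g') (h' : Tw ψ ψ' g₂ g') (x : Pic0 K F) :
    Pic0.correspondence φ' ψ' hφ' hψ' hFI' hfin' hN' (g • x) =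
      g₂ • Pic0.correspondence φ ψ hφ hψ hFI hfin hN x := by
  obtain ⟨D, rfl⟩ := Pic0.mk_surjective x
  rw [pic0_smul_mk, Pic0.correspondence_mk, Pic0.correspondence_mk, pic0_smul_mk]
  refine congrArg Pic0.mk (Subtype.ext ?_)
  rw [Pic0.coe_degZeroCorrespondence, coe_degZeroSMulHom, coe_degZeroSMulHom,
    Pic0.coe_degZeroCorrespondence, correspondence_tw hφ hφ' hψ hψ' hdeg hdeg' h h']

/-- **guarded correspondences under twisted intertwining** -/
theorem corrOp_tw (hc : CorrInputs φ ψ) (hc' : CorrInputs φ' ψ')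
    (hdeg : ∀ v : Place K F, v.deg = 1) (hdeg' : ∀ w : Place K F', w.deg = 1)
    (h : Tw φ φ' g g') (h' : Tw ψ ψ' g₂ g') (x : Pic0 K F) :
    corrOp φ' ψ' (g • x) = g₂ • corrOp φ ψ x := by
  obtain ⟨hφ, hψ, hP, hfin, hFI, hN⟩ := hc
  obtain ⟨hφ', hψ', _, hfin', hFI', hN'⟩ := hc'
  have := hP
  rw [corrOp_eq hφ hψ hFI hfin hN, corrOp_eq hφ' hψ' hFI' hfin' hN']
  exact pic0_correspondence_tw hφ hφ' hψ hψ' hFI hFI' hfin hfin' hN hN' hdeg hdeg' h h' x

end Divisors

end Fermat.Agent.S48.B.Hecke.Swap.Functorial
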