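/-
Project D (S48, Deligne–Serre), part B, block B5, seam [B-heq], the swap identity, file 3:
**`T_p = ⟨p⟩_* T_p^*` on `J₁(M)`**, i.e.
`hecke1Bar M p x = diamond1Bar M (unitOfCoprime p) (heckeStar1Bar M p x)`.

`hecke1 = corr(α, β) = β_* α^*`, `heckeStar1 = corr(β, α) = α_* β^*`.  With the Atkin-Lehner
automorphism `W` of `E = ℚ̄(X₁(M; p))` (`Swap/Aut`, from helper8's `HasRhoB`): `W ∘ β = α` and
`W ∘ α = β ∘ δ`, `δ = ⟨p⁻¹⟩^* = diamondAut (unitOfCoprime p)⁻¹`.  By `Swap/Functorial.corrOp_tw`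
(`g' = W`, `g₁ = 1`, `g₂ = δ`): `corr(α, β) x = δ • corr(β, α) x`, and `δ • · = diamond1Bar M p`
(helper3's `CorrAut.corrOp_algEquiv`).

* **`hecke1Bar_eq_diamond_star`** ; **`swap1`** : the literal `hswap` of
  `StarExport.phiHecke1_of_star` ; **`phiHecke1_of_b1`** : `PhiHecke1 M ι` on the seams of B1 and
  `HasRhoB`.
-/
import Mathlib
import Fermat.Agent.S18.A.Instances
import Fermat.Agent.S48.B.Defs.Spec
import Fermat.Agent.S48.B.B1.Seams
import Fermat.Agent.S48.B.B1.Seams2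
import Fermat.Agent.S48.B.ES.RhoSeam
import Fermat.Agent.S48.B.ES.DiamondUnique
import Fermat.Agent.S48.B.Red.CorrAut
import Fermat.Agent.S48.B.Hecke.Swap.Functorial
import Fermat.Agent.S48.B.Hecke.Swap.Aut
import Fermat.Agent.S48.B.Hecke.Wire

set_option autoImplicit false
set_option linter.style.haveILetI false

open AlgebraicCurve AlgebraicCurve.SemilinearAut ModularCurve

noncomputable section

namespace Fermat.Agent.S48.B.Hecke.Swap.Main

open Fermat.Agent.S48.B.Defs.Spec Fermat.Agent.S48.B.Defs.Model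
open Fermat.Agent.S48.B.B1.Seams Fermat.Agent.S48.B.B1.Seams2
open Fermat.Agent.S48.B.ES.RhoSeam Fermat.Agent.S48.B.ES.DiamondUnique
open Fermat.Agent.S48.B.Red.CorrAut
open Fermat.Agent.S48.B.Hecke.Swap.Functorial Fermat.Agent.S48.B.Hecke.Swap.Aut
open Fermat.Agent.S48.B.Hecke.Wire

local notation "Kb" => AlgebraicClosure ℚ

variable {M : ℕ} [NeZero M]

/-- **the swap identity** `T_p = ⟨p⟩_* T_p^*` on `J₁(M)` -/
theorem hecke1Bar_eq_diamond_star (p : Nat.Primes) (hpM : ¬ (p : ℕ) ∣ M) (h1 : Deg1 M)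
    (hp : haveI : NeZero (p : ℕ) := ⟨p.2.ne_zero⟩; Deg1p M p)
    (hB : haveI : NeZero (p : ℕ) := ⟨p.2.ne_zero⟩
      HasRhoB M p ((Nat.Prime.coprime_iff_not_dvd p.2).mpr hpM)) (x : J1 M) :
    hecke1Bar M p x =
      diamond1Bar M (ZMod.unitOfCoprime p ((Nat.Prime.coprime_iff_not_dvd p.2).mpr hpM))
        (heckeStar1Bar M p x) := by
  haveI : NeZero (p : ℕ) := ⟨p.2.ne_zero⟩
  obtain ⟨W, δ, hδ, hWβ, hWα⟩ :=
    exists_atkinLehner ((Nat.Prime.coprime_iff_not_dvd p.2).mpr hpM) hB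
  have hff := isFF_jgen1p p.2 hpM h1 hp
  have hdeg : ∀ v : Place Kb (F1Bar M), v.deg = 1 := fun v =>
    Fermat.Agent.S18.A.Instances.deg_one h1.1 v
  have hdeg' : ∀ w : Place Kb (laurentBaseChange Kb (F1p M p)), w.deg = 1 := fun w =>
    Fermat.Agent.S18.A.Instances.deg_one hff w
  have hc : CorrInputs (beta1 M p Kb) (alpha1 M p Kb) :=
    Fermat.Agent.S48.B.Inj.Basics.corrInputs_of_isFF _ _ h1.1 hff
  have hc' : CorrInputs (alpha1 M p Kb) (beta1 M p Kb) :=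
    Fermat.Agent.S48.B.Inj.Basics.corrInputs_of_isFF _ _ h1.1 hff
  have key := corrOp_tw (g := (1 : SemilinearAut Kb (F1Bar M))) (g' := ofAlgAut W)
    (g₂ := ofAlgAut δ) hc hc' hdeg hdeg'
    (fun y => by
      show ofAlgAut W • beta1 M p Kb y = alpha1 M p Kb ((1 : SemilinearAut Kb (F1Bar M)) • y)
      rw [ofAlgAut_smul, one_smul]
      exact hWβ y)
    (fun y => by
      show ofAlgAut W • alpha1 M p Kb y = beta1 M p Kb (ofAlgAut δ • y)
      rw [ofAlgAut_smul, ofAlgAut_smul]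
      exact hWα y) x
  rw [one_smul] at key
  have hδ' : diamondAut M Kb (ZMod.unitOfCoprime p
      ((Nat.Prime.coprime_iff_not_dvd p.2).mpr hpM))⁻¹ = δ := diamondAut_eq_of hδ
  show corrOp (alpha1 M p Kb) (beta1 M p Kb) x =
    corrOp (diamondAut M Kb (ZMod.unitOfCoprime p
      ((Nat.Prime.coprime_iff_not_dvd p.2).mpr hpM))⁻¹).toAlgHom (AlgHom.id Kb (F1Bar M))
      (corrOp (beta1 M p Kb) (alpha1 M p Kb) x)
  rw [corrOp_algEquiv _ (corrDiamond_of h1 _), hδ', key]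

/-- **the swap identity in the literal of `StarExport.phiHecke1_of_star`** -/
theorem swap1 (h1 : Deg1 M) (hp : ∀ (ℓ : ℕ) [NeZero ℓ], Deg1p M ℓ)
    (hB : ∀ (ℓ : ℕ) [NeZero ℓ] (hℓM : ℓ.Coprime M), HasRhoB M ℓ hℓM) :
    ∀ (p : Nat.Primes), ¬ (p : ℕ) ∣ M → ∃ d : (ZMod M)ˣ,
      (d : ZMod M) = ((p : ℕ) : ZMod M) ∧
        ∀ x : J1 M, hecke1Bar M p x = diamond1Bar M d (heckeStar1Bar M p x) := fun p hpM => by
  haveI : NeZero (p : ℕ) := ⟨p.2.ne_zero⟩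
  exact ⟨ZMod.unitOfCoprime p ((Nat.Prime.coprime_iff_not_dvd p.2).mpr hpM),
    ZMod.coe_unitOfCoprime _ _,
    hecke1Bar_eq_diamond_star p hpM h1 (hp (p : ℕ)) (hB (p : ℕ) _)⟩

/-- **`PhiHecke1`** on the seams of B1 and `HasRhoB` -/
theorem phiHecke1_of_b1 (ι : Kb →+* ℂ) (hle : RepLe M) (h1 : Deg1 M)
    (hp : ∀ (ℓ : ℕ) [NeZero ℓ], Deg1p M ℓ) (han : DiamondAn M) (hex : DiamondExists M)
    (hB : ∀ (ℓ : ℕ) [NeZero ℓ] (hℓM : ℓ.Coprime M), HasRhoB M ℓ hℓM) : PhiHecke1 M ι :=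
  phiHecke1_of_seams ι hle h1 hp han hex (swap1 h1 hp hB)

end Fermat.Agent.S48.B.Hecke.Swap.Main
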